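import Mathlib

/-!
# S41 / block CORE — linear algebra lemmas (helper180)

Mathlib-only.  Pure linear algebra used by `Fermat.Agent.S41.H180.Core`:

* `eprod s L` : the operator `∏_{(l, E) ∈ L} (1 - (s l) ^ E)`;
* `exists_kill` : a stable subspace without common kernel vectors is killed by some `eprod s L`;
* `range_le_range_of_dual` : the duality step.
-/

set_option autoImplicit false

namespace Fermat.Agent.S41.H180

section Eprod

variable {R M ι : Type*} [CommRing R] [AddCommGroup M] [Module R M]

/-- The factor `1 - (s l) ^ E`. -/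
noncomputable def fac (s : ι → Module.End R M) (q : ι × ℕ) : Module.End R M :=
  1 - (s q.1) ^ q.2

/-- The product `∏_{(l, E) ∈ L} (1 - (s l) ^ E)`. -/
noncomputable def eprod (s : ι → Module.End R M) (L : List (ι × ℕ)) : Module.End R M :=
  (L.map (fac s)).prod

@[simp] lemma eprod_nil (s : ι → Module.End R M) : eprod s [] = 1 := by
  simp [eprod]

@[simp] lemma eprod_cons (s : ι → Module.End R M) (q : ι × ℕ) (L : List (ι × ℕ)) :
    eprod s (q :: L) = fac s q * eprod s L := by
  simp [eprod]

lemma eprod_append (s : ι → Module.End R M) (L L' : List (ι × ℕ)) :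
    eprod s (L ++ L') = eprod s L * eprod s L' := by
  simp [eprod]

lemma fac_apply (s : ι → Module.End R M) (q : ι × ℕ) (x : M) :
    fac s q x = x - ((s q.1) ^ q.2) x := by
  simp [fac]

end Eprod

section Intertwine

variable {R R' M M' ι : Type*} [CommRing R] [AddCommGroup M] [Module R M]
  [CommRing R'] [AddCommGroup M'] [Module R' M']

/-- An additive map intertwining the operators intertwines their powers. -/
lemma intertwine_pow (φ : M →+ M') (f : Module.End R M) (f' : Module.End R' M')
    (h : ∀ x, φ (f x) = f' (φ x)) (n : ℕ) (x : M) : φ ((f ^ n) x) = (f' ^ n) (φ x) := by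
  induction n generalizing x with
  | zero => simp
  | succ n ih =>
    rw [pow_succ, pow_succ, Module.End.mul_apply, Module.End.mul_apply, ih, h]

/-- An additive map intertwining the operators `s l`, `s' l` intertwines `eprod s L`,
`eprod s' L`. -/
lemma intertwine_eprod (φ : M →+ M') (s : ι → Module.End R M) (s' : ι → Module.End R' M')
    (h : ∀ l x, φ (s l x) = s' l (φ x)) (L : List (ι × ℕ)) (x : M) :
    φ (eprod s L x) = eprod s' L (φ x) := by
  induction L generalizing x with
  | nil => simp
  | cons q L ih =>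
    rw [eprod_cons, eprod_cons, Module.End.mul_apply, Module.End.mul_apply, fac_apply, fac_apply,
      map_sub, intertwine_pow φ (s q.1) (s' q.1) (h q.1), ih]

end Intertwine

section Commute

variable {R M ι : Type*} [CommRing R] [AddCommGroup M] [Module R M]

lemma commute_fac (s : ι → Module.End R M) (hc : ∀ l l', Commute (s l) (s l')) (q : ι × ℕ)
    (l : ι) : Commute (fac s q) (s l) := by
  unfold fac
  exact ((Commute.one_left _).sub_left ((hc q.1 l).pow_left q.2))

lemma commute_eprod (s : ι → Module.End R M) (hc : ∀ l l', Commute (s l) (s l'))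
    (L : List (ι × ℕ)) (l : ι) : Commute (eprod s L) (s l) := by
  induction L with
  | nil => simp
  | cons q L ih =>
    rw [eprod_cons]
    exact (commute_fac s hc q l).mul_left ih

lemma eprod_apply_comm (s : ι → Module.End R M) (hc : ∀ l l', Commute (s l) (s l'))
    (L : List (ι × ℕ)) (l : ι) (x : M) : eprod s L (s l x) = s l (eprod s L x) := by
  have := (commute_eprod s hc L l).eq
  exact congrArg (fun f : Module.End R M => f x) this

lemma pow_mem_of_stable (f : Module.End R M) (N : Submodule R M) (hN : ∀ x ∈ N, f x ∈ N)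
    (n : ℕ) : ∀ x ∈ N, (f ^ n) x ∈ N := by
  induction n with
  | zero => intro x hx; simpa using hx
  | succ n ih =>
    intro x hx
    rw [pow_succ, Module.End.mul_apply]
    exact ih _ (hN x hx)

lemma eprod_mem_of_stable (s : ι → Module.End R M) (N : Submodule R M)
    (hN : ∀ l, ∀ x ∈ N, s l x ∈ N) (L : List (ι × ℕ)) : ∀ x ∈ N, eprod s L x ∈ N := by
  induction L with
  | nil => intro x hx; simpa using hx
  | cons q L ih =>
    intro x hx
    rw [eprod_cons, Module.End.mul_apply, fac_apply]
    exact N.sub_mem (ih x hx) (pow_mem_of_stable _ N (hN q.1) _ _ (ih x hx))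

end Commute

section SelfAdjoint

variable {k V ι : Type*} [Field k] [AddCommGroup V] [Module k V]

lemma selfAdjoint_pow (B : V →ₗ[k] V →ₗ[k] k) (f : Module.End k V)
    (hf : ∀ x y, B (f x) y = B x (f y)) (n : ℕ) (x y : V) : B ((f ^ n) x) y = B x ((f ^ n) y) := by
  induction n generalizing x y with
  | zero => simp
  | succ n ih =>
    rw [pow_succ, Module.End.mul_apply, ih, hf, ← Module.End.mul_apply, ← pow_succ']
    rw [pow_succ]

lemma selfAdjoint_fac (B : V →ₗ[k] V →ₗ[k] k) (s : ι → Module.End k V)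
    (hs : ∀ l x y, B (s l x) y = B x (s l y)) (q : ι × ℕ) (x y : V) :
    B (fac s q x) y = B x (fac s q y) := by
  rw [fac_apply, fac_apply, map_sub, LinearMap.sub_apply, map_sub,
    selfAdjoint_pow B (s q.1) (hs q.1)]

lemma selfAdjoint_eprod (B : V →ₗ[k] V →ₗ[k] k) (s : ι → Module.End k V)
    (hc : ∀ l l', Commute (s l) (s l')) (hs : ∀ l x y, B (s l x) y = B x (s l y))
    (L : List (ι × ℕ)) (x y : V) : B (eprod s L x) y = B x (eprod s L y) := by
  induction L generalizing x y with
  | nil => simp
  | cons q L ih =>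
    have hcomm : Commute (eprod s L) (fac s q) := by
      unfold fac
      exact (Commute.one_right _).sub_right ((commute_eprod s hc L q.1).pow_right q.2)
    rw [eprod_cons, Module.End.mul_apply, selfAdjoint_fac B s hs, ih, ← Module.End.mul_apply,
      hcomm.eq]

end SelfAdjoint

section FixEigen

variable {M ι : Type*} [AddCommGroup M]

/-- `eprod s L` fixes eigenvectors modulo `p` when all exponents are positive. -/
lemma eprod_sub_self_mem (p : ℤ) (s : ι → Module.End ℤ M) (L : List (ι × ℕ))
    (hL : ∀ q ∈ L, 1 ≤ q.2) (y : M) (hy : ∀ l, ∃ z, s l y = p • z) :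
    ∃ z, eprod s L y - y = p • z := by
  induction L with
  | nil => exact ⟨0, by simp⟩
  | cons q L ih =>
    obtain ⟨z, hz⟩ := ih (fun q' hq' => hL q' (List.mem_cons_of_mem _ hq'))
    obtain ⟨z', hz'⟩ := hy q.1
    have hq : 1 ≤ q.2 := hL q List.mem_cons_self
    obtain ⟨m, hm⟩ : ∃ m, q.2 = m + 1 := ⟨q.2 - 1, by omega⟩
    have h1 : eprod s L y = y + p • z := by rw [← hz]; abel
    have h2 : ((s q.1) ^ q.2) y = p • ((s q.1) ^ m) z' := by
      rw [hm, pow_succ, Module.End.mul_apply, hz', map_zsmul]
    refine ⟨fac s q z - ((s q.1) ^ m) z', ?_⟩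
    rw [eprod_cons, Module.End.mul_apply, h1, map_add, map_zsmul, fac_apply (x := y), h2,
      smul_sub]
    abel

end FixEigen

section Kill

variable {k V ι : Type*} [Field k] [AddCommGroup V] [Module k V]

/-- An operator which is injective on a finite stable subspace has a positive power which is the
identity on that subspace. -/
lemma exists_pow_apply_eq_self [Finite V] (f : Module.End k V) (N : Submodule k V)
    (hN : ∀ x ∈ N, f x ∈ N) (hinj : ∀ x ∈ N, f x = 0 → x = 0) :
    ∃ E : ℕ, 1 ≤ E ∧ ∀ x ∈ N, (f ^ E) x = x := by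
  classical
  let g : N → N := fun x => ⟨f x, hN x x.2⟩
  have hg : Function.Injective g := by
    intro x y hxy
    have h1 : f (x : V) = f (y : V) := congrArg Subtype.val hxy
    have h2 : f ((x : V) - y) = 0 := by rw [map_sub, h1, sub_self]
    have h3 := hinj _ (N.sub_mem x.2 y.2) h2
    exact Subtype.ext (sub_eq_zero.mp h3)
  have hgb : Function.Bijective g := Finite.injective_iff_bijective.mp hg
  let σ : Equiv.Perm N := Equiv.ofBijective g hgb
  have hσ : ∀ (n : ℕ) (x : N), (((σ ^ n) x : N) : V) = (f ^ n) (x : V) := by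
    intro n
    induction n with
    | zero => intro x; simp
    | succ n ih =>
      intro x
      rw [pow_succ', Equiv.Perm.mul_apply, pow_succ', Module.End.mul_apply, ← ih]
      rfl
  refine ⟨orderOf σ, orderOf_pos σ, fun x hx => ?_⟩
  have := hσ (orderOf σ) ⟨x, hx⟩
  rw [pow_orderOf_eq_one] at this
  simpa using this.symm

/-- **KILL.**  A subspace of a finite vector space which is stable under commuting operators
`s l` and contains no nonzero common kernel vector is killed by a product
`∏ (1 - (s l) ^ E)` with all `E ≥ 1`. -/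
theorem exists_kill [Finite V] (s : ι → Module.End k V) (hc : ∀ l l', Commute (s l) (s l')) :
    ∀ (n : ℕ) (N : Submodule k V), Nat.card N = n → (∀ l, ∀ x ∈ N, s l x ∈ N) →
      (∀ x ∈ N, (∀ l, s l x = 0) → x = 0) →
      ∃ L : List (ι × ℕ), (∀ q ∈ L, 1 ≤ q.2) ∧ ∀ x ∈ N, eprod s L x = 0 := by
  intro n
  induction n using Nat.strong_induction_on with
  | _ n ih =>
  intro N hcard hN hker
  by_cases hbot : ∀ x ∈ N, x = 0
  · exact ⟨[], by simp, fun x hx => by simp [hbot x hx]⟩
  push Not at hbot
  obtain ⟨x₀, hx₀N, hx₀⟩ := hbot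
  obtain ⟨l, hl⟩ : ∃ l, s l x₀ ≠ 0 := by
    by_contra h
    push Not at h
    exact hx₀ (hker x₀ hx₀N h)
  -- the kernel of `s l` in `N`
  let N' : Submodule k V := N ⊓ LinearMap.ker (s l)
  have hN'le : N' ≤ N := inf_le_left
  have hN'st : ∀ l', ∀ x ∈ N', s l' x ∈ N' := by
    intro l' x hx
    refine ⟨hN l' x hx.1, ?_⟩
    have h0 : s l x = 0 := hx.2
    show s l (s l' x) = 0
    have := (hc l l').eq
    have h1 : s l (s l' x) = s l' (s l x) := congrArg (fun f : Module.End k V => f x) this
    rw [h1, h0, map_zero]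
  have hN'ker : ∀ x ∈ N', (∀ l, s l x = 0) → x = 0 := fun x hx => hker x hx.1
  have hcard_lt : ∀ (P : Submodule k V), P ≤ N → (∃ x ∈ N, x ∉ P) → Nat.card P < Nat.card N := by
    intro P hPN ⟨x, hxN, hxP⟩
    have hlt : (P : Set V) ⊂ (N : Set V) :=
      ⟨hPN, fun h => hxP (h hxN)⟩
    have := Set.ncard_lt_ncard hlt (Set.toFinite _)
    rw [← Nat.card_coe_set_eq, ← Nat.card_coe_set_eq] at this
    exact this
  have hN'card : Nat.card N' < n := by
    rw [← hcard]
    exact hcard_lt N' hN'le ⟨x₀, hx₀N, fun h => hl h.2⟩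
  obtain ⟨L', hL'1, hL'⟩ := ih _ hN'card N' rfl hN'st hN'ker
  by_cases hN'bot : ∀ x ∈ N', x = 0
  · -- `s l` is injective on `N`
    obtain ⟨E, hE1, hE⟩ := exists_pow_apply_eq_self (s l) N (hN l)
      (fun x hx h0 => hN'bot x ⟨hx, h0⟩)
    refine ⟨[(l, E)], by simpa using hE1, fun x hx => ?_⟩
    simp [fac_apply, hE x hx]
  · push Not at hN'bot
    obtain ⟨x₁, hx₁N', hx₁⟩ := hN'bot
    let e' := eprod s L'
    let N'' : Submodule k V := N.map e'
    have hN''le : N'' ≤ N := by
      rintro _ ⟨x, hx, rfl⟩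
      exact eprod_mem_of_stable s N hN L' x hx
    have hN''st : ∀ l', ∀ x ∈ N'', s l' x ∈ N'' := by
      rintro l' _ ⟨x, hx, rfl⟩
      refine ⟨s l' x, hN l' x hx, ?_⟩
      exact eprod_apply_comm s hc L' l' x
    have hN''ker : ∀ x ∈ N'', (∀ l, s l x = 0) → x = 0 := fun x hx => hker x (hN''le hx)
    have hN''card : Nat.card N'' < n := by
      rw [← hcard]
      by_contra hge
      push Not at hge
      let f : N → N'' := fun x => ⟨e' x, Submodule.mem_map_of_mem x.2⟩
      have hf : Function.Surjective f := by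
        rintro ⟨_, x, hx, rfl⟩
        exact ⟨⟨x, hx⟩, rfl⟩
      have hfb := hf.bijective_of_nat_card_le hge
      have h1 : f ⟨x₁, hx₁N'.1⟩ = f 0 := by
        apply Subtype.ext
        show e' x₁ = e' 0
        rw [hL' x₁ hx₁N', map_zero]
      have h2 := hfb.1 h1
      exact hx₁ (congrArg Subtype.val h2)
    obtain ⟨L'', hL''1, hL''⟩ := ih _ hN''card N'' rfl hN''st hN''ker
    refine ⟨L'' ++ L', ?_, fun x hx => ?_⟩
    · intro q hq
      rcases List.mem_append.mp hq with h | h
      · exact hL''1 q h
      · exact hL'1 q h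
    · rw [eprod_append, Module.End.mul_apply]
      exact hL'' _ (Submodule.mem_map_of_mem hx)

end Kill

section Dual

variable {k V W : Type*} [Field k] [AddCommGroup V] [Module k V] [FiniteDimensional k V]
  [AddCommGroup W] [Module k W]

/-- **DUAL.**  If `j` is adjoint to `i` for left-nondegenerate forms and the self-adjoint operator
`e` kills `ker i`, then `range e ≤ range j`. -/
theorem range_le_range_of_dual (BV : V →ₗ[k] V →ₗ[k] k) (BW : W →ₗ[k] W →ₗ[k] k)
    (hV : ∀ x, (∀ y, BV x y = 0) → x = 0) (hW : ∀ x, (∀ y, BW x y = 0) → x = 0)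
    (i : V →ₗ[k] W) (j : W →ₗ[k] V) (hadj : ∀ x y, BW (i x) y = BV x (j y))
    (e : V →ₗ[k] V) (hsa : ∀ x y, BV (e x) y = BV x (e y)) (hkill : ∀ x, i x = 0 → e x = 0) :
    LinearMap.range e ≤ LinearMap.range j := by
  rintro _ ⟨a, rfl⟩
  by_contra hnot
  obtain ⟨φ, hφ1, hφ2⟩ := Submodule.exists_dual_map_eq_bot_of_notMem hnot inferInstance
  have hinj : Function.Injective BV := by
    rw [← LinearMap.ker_eq_bot, LinearMap.ker_eq_bot']
    intro x hx
    exact hV x (fun y => by rw [hx]; rfl)
  have hsurj : Function.Surjective BV :=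
    (LinearMap.injective_iff_surjective_of_finrank_eq_finrank
      (Subspace.dual_finrank_eq (K := k) (V := V)).symm).mp hinj
  obtain ⟨w, hw⟩ := hsurj φ
  have hiw : i w = 0 := by
    apply hW
    intro u
    rw [hadj, hw]
    have : φ (j u) ∈ (LinearMap.range j).map φ := ⟨j u, ⟨u, rfl⟩, rfl⟩
    rw [hφ2] at this
    simpa using this
  apply hφ1
  rw [← hw, ← hsa, hkill w hiw]
  simp

end Dual

end Fermat.Agent.S41.H180
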