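import Mathlib
import Fermat.Agent.S41.H180.CoreLin

/-!
# S41 / block CORE — reduction modulo `p` of a finite free `ℤ`-module (helper180)

`Red p X` : an `𝔽_p`-vector space `V` with a surjective additive map `red : X → V` whose kernel
is `pX`.  Induced linear maps (`Red.lift`, `Red.map`) and bilinear forms (`Red.bil`).
Also the saturation lemma `exists_sat` (Artin–Rees).
-/

set_option autoImplicit false

namespace Fermat.Agent.S41.H180

/-- Reduction data modulo `p` for an abelian group `X`. -/
structure Red (p : ℕ) (X : Type) [AddCommGroup X] where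
  /-- the reduction `X / pX` -/
  V : Type
  [instACG : AddCommGroup V]
  [instMod : Module (ZMod p) V]
  [instFin : Finite V]
  /-- the reduction map -/
  red : X →+ V
  surj : Function.Surjective red
  ker : ∀ x, red x = 0 ↔ ∃ z, x = (p : ℤ) • z

attribute [instance] Red.instACG Red.instMod Red.instFin

lemma zmod_zsmul_eq_zero (p : ℕ) {W : Type*} [AddCommGroup W] [Module (ZMod p) W] (w : W) :
    (p : ℤ) • w = 0 := by
  rw [← Int.cast_smul_eq_zsmul (ZMod p) (p : ℤ) w]
  simp

namespace Red

variable {p : ℕ} {X Y : Type} [AddCommGroup X] [AddCommGroup Y]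

/-- Lift an additive map to a `ZMod p`-module through the reduction. -/
noncomputable def lift (R : Red p X) {W : Type*} [AddCommGroup W] [Module (ZMod p) W]
    (g : X →+ W) : R.V →ₗ[ZMod p] W :=
  AddMonoidHom.toZModLinearMap p
    (R.red.liftOfRightInverse (Function.surjInv R.surj) (Function.rightInverse_surjInv R.surj)
      ⟨g, by
        intro x hx
        obtain ⟨z, rfl⟩ := (R.ker x).mp hx
        show g ((p : ℤ) • z) = 0
        rw [map_zsmul, zmod_zsmul_eq_zero]⟩)

@[simp] lemma lift_red (R : Red p X) {W : Type*} [AddCommGroup W] [Module (ZMod p) W]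
    (g : X →+ W) (x : X) : R.lift g (R.red x) = g x := by
  unfold lift
  simp [AddMonoidHom.liftOfRightInverse_comp_apply]

/-- The map induced on reductions. -/
noncomputable def map (RX : Red p X) (RY : Red p Y) (f : X →+ Y) : RX.V →ₗ[ZMod p] RY.V :=
  RX.lift (RY.red.comp f)

@[simp] lemma map_red (RX : Red p X) (RY : Red p Y) (f : X →+ Y) (x : X) :
    RX.map RY f (RX.red x) = RY.red (f x) := by
  simp [map]

/-- The bilinear form induced on the reduction by a biadditive form. -/
noncomputable def bil (R : Red p X) (β : X → X → ZMod p)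
    (h1 : ∀ x x' y, β (x + x') y = β x y + β x' y)
    (h2 : ∀ x y y', β x (y + y') = β x y + β x y') : R.V →ₗ[ZMod p] R.V →ₗ[ZMod p] ZMod p :=
  R.lift (AddMonoidHom.mk' (fun x => R.lift (AddMonoidHom.mk' (β x) (h2 x))) (by
    intro x x'
    apply LinearMap.ext
    intro v
    obtain ⟨y, rfl⟩ := R.surj v
    simp [h1]))

@[simp] lemma bil_red (R : Red p X) (β : X → X → ZMod p)
    (h1 : ∀ x x' y, β (x + x') y = β x y + β x' y)
    (h2 : ∀ x y y', β x (y + y') = β x y + β x y') (x y : X) :
    R.bil β h1 h2 (R.red x) (R.red y) = β x y := by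
  simp [bil]

lemma red_eq_red_iff (R : Red p X) (x y : X) :
    R.red x = R.red y ↔ ∃ z, x - y = (p : ℤ) • z := by
  rw [← sub_eq_zero, ← map_sub, R.ker]

/-- Reduction data exist for finite free `ℤ`-modules. -/
noncomputable def ofFree (p : ℕ) [Fact p.Prime] (X : Type) [AddCommGroup X]
    [Module.Finite ℤ X] [Module.Free ℤ X] : Red p X := by
  classical
  haveI : NeZero p := ⟨(Fact.out : p.Prime).ne_zero⟩
  let b := Module.Free.chooseBasis ℤ X
  refine
    { V := Module.Free.ChooseBasisIndex ℤ X → ZMod p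
      red := ((Int.castAddHom (ZMod p)).compLeft _).comp b.equivFun.toLinearMap.toAddMonoidHom
      surj := ?_
      ker := ?_ }
  · intro v
    refine ⟨b.equivFun.symm (fun i => ((v i).val : ℤ)), ?_⟩
    funext i
    show ((b.equivFun (b.equivFun.symm (fun i => ((v i).val : ℤ))) i : ℤ) : ZMod p) = v i
    rw [LinearEquiv.apply_symm_apply]
    simp
  · intro x
    constructor
    · intro h
      have h' : ∀ i, (p : ℤ) ∣ b.equivFun x i := by
        intro i
        have h0 : ((b.equivFun x i : ℤ) : ZMod p) = 0 := congrFun h i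
        exact (ZMod.intCast_zmod_eq_zero_iff_dvd _ p).mp h0
      choose c hc using h'
      refine ⟨b.equivFun.symm c, ?_⟩
      apply b.equivFun.injective
      funext i
      rw [map_zsmul, LinearEquiv.apply_symm_apply]
      simp [hc i]
    · rintro ⟨z, rfl⟩
      funext i
      show ((b.equivFun ((p : ℤ) • z) i : ℤ) : ZMod p) = 0
      rw [map_zsmul]
      simp

end Red

/-- Saturation (Artin–Rees): if `j y` is divisible by a high power of `p`, then
`j y ∈ p • range j`. -/
lemma exists_sat (p : ℕ) {X Y : Type*} [AddCommGroup X] [AddCommGroup Y] [Module.Finite ℤ X]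
    (j : Y →ₗ[ℤ] X) :
    ∃ n : ℕ, ∀ y : Y, (∃ a : X, j y = ((p : ℤ) ^ n) • a) → ∃ b : Y, j y = (p : ℤ) • j b := by
  obtain ⟨k, hk⟩ := Ideal.exists_pow_inf_eq_pow_smul (Ideal.span {(p : ℤ)}) (LinearMap.range j)
  refine ⟨k + 1, fun y ⟨a, ha⟩ => ?_⟩
  have h1 : j y ∈ (Ideal.span {(p : ℤ)}) ^ (k + 1) • (⊤ : Submodule ℤ X) ⊓ LinearMap.range j := by
    refine ⟨?_, ⟨y, rfl⟩⟩
    rw [ha]
    exact Submodule.smul_mem_smul (Ideal.pow_mem_pow (Ideal.mem_span_singleton_self _) _)
      Submodule.mem_top
  rw [hk (k + 1) (Nat.le_succ k), Nat.add_sub_cancel_left, pow_one] at h1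
  have h2 : j y ∈ (Ideal.span {(p : ℤ)}) • LinearMap.range j :=
    (smul_mono_right (Ideal.span {(p : ℤ)}) (inf_le_right : _ ⊓ LinearMap.range j ≤ LinearMap.range j)) h1
  rw [Submodule.ideal_span_singleton_smul] at h2
  obtain ⟨w, ⟨b, rfl⟩, hw⟩ := (Submodule.mem_smul_pointwise_iff_exists _ _ _).mp h2
  exact ⟨b, hw.symm⟩

end Fermat.Agent.S41.H180
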