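import Mathlib
import Fermat.Agent.S41.H180.CoreRed

/-!
# S41 / block CORE — the symmetric form of Ribet's linear algebra (helper180)

`core_sym` : two finite free `ℤ`-modules `X`, `Y`, operators `sX l`, `sY l` (think
`t_l - a_l`), equivariant maps `i : X → Y`, `j : Y → X`, adjoint for forms which are
nondegenerate modulo `p`.  If no eigenvector modulo `p` lies in the kernel of `i` modulo `p`
and some eigenvector `v` modulo `p` has `j (i v) ∈ pX`, then `ker j` contains an eigenvector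
modulo `p`.
-/

set_option autoImplicit false

namespace Fermat.Agent.S41.H180

theorem core_sym (p : ℕ) [Fact p.Prime] {ι X Y : Type} [AddCommGroup X] [AddCommGroup Y]
    [Module.Finite ℤ X] [Module.Free ℤ X] [Module.Finite ℤ Y] [Module.Free ℤ Y]
    (sX : ι → Module.End ℤ X) (sY : ι → Module.End ℤ Y) (i : X →ₗ[ℤ] Y) (j : Y →ₗ[ℤ] X)
    (βX : X → X → ZMod p) (βY : Y → Y → ZMod p)
    (hcX : ∀ l l', Commute (sX l) (sX l'))
    (hi : ∀ l x, sY l (i x) = i (sX l x)) (hj : ∀ l y, sX l (j y) = j (sY l y))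
    (hβX1 : ∀ x x' y, βX (x + x') y = βX x y + βX x' y)
    (hβX2 : ∀ x y y', βX x (y + y') = βX x y + βX x y')
    (hβY1 : ∀ x x' y, βY (x + x') y = βY x y + βY x' y)
    (hβY2 : ∀ x y y', βY x (y + y') = βY x y + βY x y')
    (hndX : ∀ x, (∀ y, βX x y = 0) → ∃ z, x = (p : ℤ) • z)
    (hndY : ∀ x, (∀ y, βY x y = 0) → ∃ z, x = (p : ℤ) • z)
    (hsaX : ∀ l x y, βX (sX l x) y = βX x (sX l y))
    (hadj : ∀ x y, βY (i x) y = βX x (j y))
    (hIh : ∀ x, (∃ z, i x = (p : ℤ) • z) → (∀ l, ∃ z, sX l x = (p : ℤ) • z) →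
      ∃ z, x = (p : ℤ) • z)
    (v : X) (hv : ¬ ∃ z, v = (p : ℤ) • z) (hvs : ∀ l, ∃ z, sX l v = (p : ℤ) • z)
    (hvM : ∃ z, j (i v) = (p : ℤ) • z) :
    ∃ y : Y, j y = 0 ∧ (¬ ∃ z, y = (p : ℤ) • z) ∧ ∀ l, ∃ z, sY l y = (p : ℤ) • z := by
  classical
  let RX : Red p X := Red.ofFree p X
  let RY : Red p Y := Red.ofFree p Y
  let sV : ι → Module.End (ZMod p) RX.V := fun l => RX.map RX (sX l).toAddMonoidHom
  let iV : RX.V →ₗ[ZMod p] RY.V := RX.map RY i.toAddMonoidHom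
  let jV : RY.V →ₗ[ZMod p] RX.V := RY.map RX j.toAddMonoidHom
  let BV := RX.bil βX hβX1 hβX2
  let BW := RY.bil βY hβY1 hβY2
  have hsV : ∀ l x, RX.red (sX l x) = sV l (RX.red x) := fun l x =>
    (Red.map_red RX RX (sX l).toAddMonoidHom x).symm
  have hiV : ∀ x, iV (RX.red x) = RY.red (i x) := fun x => Red.map_red RX RY i.toAddMonoidHom x
  have hjV : ∀ y, jV (RY.red y) = RX.red (j y) := fun y => Red.map_red RY RX j.toAddMonoidHom y
  have hBV : ∀ x y, BV (RX.red x) (RX.red y) = βX x y := Red.bil_red RX βX hβX1 hβX2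
  have hBW : ∀ x y, BW (RY.red x) (RY.red y) = βY x y := Red.bil_red RY βY hβY1 hβY2
  -- commutation on `V`
  have hcV : ∀ l l', Commute (sV l) (sV l') := by
    intro l l'
    apply LinearMap.ext
    intro w
    obtain ⟨x, rfl⟩ := RX.surj w
    show sV l (sV l' (RX.red x)) = sV l' (sV l (RX.red x))
    rw [← hsV, ← hsV, ← hsV, ← hsV]
    exact congrArg RX.red (congrArg (fun f : Module.End ℤ X => f x) (hcX l l').eq)
  -- `ker iV` is stable and has no common kernel vector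
  have hNst : ∀ l, ∀ w ∈ LinearMap.ker iV, sV l w ∈ LinearMap.ker iV := by
    intro l w hw
    obtain ⟨x, rfl⟩ := RX.surj w
    rw [LinearMap.mem_ker, hiV, RY.ker] at hw
    obtain ⟨z, hz⟩ := hw
    rw [LinearMap.mem_ker, ← hsV, hiV, RY.ker, ← hi, hz]
    exact ⟨sY l z, map_zsmul _ _ _⟩
  have hNker : ∀ w ∈ LinearMap.ker iV, (∀ l, sV l w = 0) → w = 0 := by
    intro w hw hs
    obtain ⟨x, rfl⟩ := RX.surj w
    rw [LinearMap.mem_ker, hiV, RY.ker] at hw
    rw [RX.ker]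
    refine hIh x hw (fun l => ?_)
    have := hs l
    rwa [← hsV, RX.ker] at this
  obtain ⟨L, hL1, hL⟩ := exists_kill sV hcV _ (LinearMap.ker iV) rfl hNst hNker
  -- the operators `e`
  have heV : ∀ x, RX.red (eprod sX L x) = eprod sV L (RX.red x) :=
    intertwine_eprod RX.red sX sV hsV L
  have hje : ∀ y, j (eprod sY L y) = eprod sX L (j y) :=
    intertwine_eprod j.toAddMonoidHom sY sX (fun l y => (hj l y).symm) L
  -- nondegeneracy and adjointness on `V`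
  have hndV : ∀ w, (∀ w', BV w w' = 0) → w = 0 := by
    intro w hw
    obtain ⟨x, rfl⟩ := RX.surj w
    rw [RX.ker]
    exact hndX x (fun y => by rw [← hBV]; exact hw _)
  have hndW : ∀ w, (∀ w', BW w w' = 0) → w = 0 := by
    intro w hw
    obtain ⟨x, rfl⟩ := RY.surj w
    rw [RY.ker]
    exact hndY x (fun y => by rw [← hBW]; exact hw _)
  have hadjV : ∀ w u, BW (iV w) u = BV w (jV u) := by
    intro w u
    obtain ⟨x, rfl⟩ := RX.surj w
    obtain ⟨y, rfl⟩ := RY.surj u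
    rw [hiV, hjV, hBW, hBV, hadj]
  have hsaV : ∀ l w w', BV (sV l w) w' = BV w (sV l w') := by
    intro l w w'
    obtain ⟨x, rfl⟩ := RX.surj w
    obtain ⟨y, rfl⟩ := RX.surj w'
    rw [← hsV, ← hsV, hBV, hBV, hsaX]
  have hrange := range_le_range_of_dual BV BW hndV hndW iV jV hadjV (eprod sV L)
    (selfAdjoint_eprod BV sV hcV hsaV L) (fun w hw => hL w hw)
  -- Step 2, lattice form
  have step2 : ∀ a : X, ∃ b : Y, ∃ a' : X, eprod sX L a = j b + (p : ℤ) • a' := by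
    intro a
    obtain ⟨u, hu⟩ := hrange ⟨RX.red a, rfl⟩
    obtain ⟨b, rfl⟩ := RY.surj u
    rw [hjV, ← heV, eq_comm, RX.red_eq_red_iff] at hu
    obtain ⟨a', ha'⟩ := hu
    exact ⟨b, a', by rw [← ha']; abel⟩
  -- the starting vector
  obtain ⟨a₁, ha₁⟩ := hvM
  have hy0s : ∀ l, ∃ z, sY l (i v) = (p : ℤ) • z := by
    intro l
    obtain ⟨z, hz⟩ := hvs l
    exact ⟨i z, by rw [hi, hz, map_zsmul]⟩
  have hy0 : ¬ ∃ z, i v = (p : ℤ) • z := fun h => hv (hIh v h hvs)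
  -- descent
  have descent : ∀ n : ℕ, ∃ y : Y, (∃ z, y - i v = (p : ℤ) • z) ∧
      ∃ a : X, j y = ((p : ℤ) ^ (n + 1)) • a := by
    intro n
    induction n with
    | zero => exact ⟨i v, ⟨0, by simp⟩, a₁, by simpa using ha₁⟩
    | succ n ih =>
      obtain ⟨y, ⟨z, hz⟩, a, ha⟩ := ih
      obtain ⟨b, a', hba⟩ := step2 a
      obtain ⟨z₀, hz₀⟩ := eprod_sub_self_mem (p : ℤ) sY L hL1 (i v) hy0s
      refine ⟨eprod sY L y - ((p : ℤ) ^ (n + 1)) • b, ⟨?_, a', ?_⟩⟩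
      · have hy : y = i v + (p : ℤ) • z := by rw [← hz]; abel
        refine ⟨eprod sY L z + z₀ - ((p : ℤ) ^ n) • b, ?_⟩
        have h1 : eprod sY L (i v) = i v + (p : ℤ) • z₀ := by rw [← hz₀]; abel
        rw [hy, map_add, map_zsmul, h1, pow_succ, mul_comm, mul_smul, smul_sub, smul_add]
        abel
      · rw [map_sub, hje, ha, map_zsmul, map_zsmul, hba, smul_add, pow_succ _ (n + 1), mul_smul]
        abel
  -- saturation
  obtain ⟨n₀, hn₀⟩ := exists_sat p j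
  obtain ⟨y, ⟨z, hz⟩, a, ha⟩ := descent n₀
  have ha' : ∃ a'' : X, j y = ((p : ℤ) ^ n₀) • a'' := ⟨(p : ℤ) • a, by
    rw [ha, pow_succ, mul_smul]⟩
  obtain ⟨b, hb⟩ := hn₀ y ha'
  have hy : y = i v + (p : ℤ) • z := by rw [← hz]; abel
  refine ⟨y - (p : ℤ) • b, ?_, ?_, ?_⟩
  · rw [map_sub, map_zsmul, hb, sub_self]
  · rintro ⟨w, hw⟩
    apply hy0
    refine ⟨w - z + b, ?_⟩
    have : i v = (y - (p : ℤ) • b) - (p : ℤ) • z + (p : ℤ) • b := by rw [hy]; abel
    rw [this, hw, smul_add, smul_sub]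
  · intro l
    obtain ⟨z₁, hz₁⟩ := hy0s l
    refine ⟨z₁ + sY l z - sY l b, ?_⟩
    rw [hy, map_sub, map_add, map_zsmul, map_zsmul, hz₁, smul_sub, smul_add]

end Fermat.Agent.S41.H180
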