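import Mathlib
import Fermat.Agent.S41.Spec.Core
import Fermat.Agent.S41.H180.CoreSym

/-!
# S41 / block CORE — `ribetCore : Spec.RibetCoreStatement` (helper180)

Ribet's linear algebra (level raising): deduced from the symmetric form `core_sym`
applied to `X = A × A`, `Y = B`, `i = i₁ + i₂`, `j = (j₁, j₂)`.
-/

set_option autoImplicit false

namespace Fermat.Agent.S41.H180

section Aux

variable {p : ℕ} {A : Type} [AddCommGroup A]

lemma biadd_zero_right (β : A → A → ZMod p) (h2 : ∀ x y y', β x (y + y') = β x y + β x y')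
    (x : A) : β x 0 = 0 := by
  have := h2 x 0 0
  rw [add_zero] at this
  exact left_eq_add.mp this

lemma biadd_zsmul_left (β : A → A → ZMod p) (h1 : ∀ x x' y, β (x + x') y = β x y + β x' y)
    (n : ℤ) (x y : A) : β (n • x) y = n • β x y :=
  map_zsmul (AddMonoidHom.mk' (fun x => β x y) (fun x x' => h1 x x' y)) n x

lemma biadd_sub_left (β : A → A → ZMod p) (h1 : ∀ x x' y, β (x + x') y = β x y + β x' y)
    (x x' y : A) : β (x - x') y = β x y - β x' y :=
  map_sub (AddMonoidHom.mk' (fun x => β x y) (fun x x' => h1 x x' y)) x x'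

lemma biadd_zsmul_right (β : A → A → ZMod p) (h2 : ∀ x y y', β x (y + y') = β x y + β x y')
    (n : ℤ) (x y : A) : β x (n • y) = n • β x y :=
  map_zsmul (AddMonoidHom.mk' (β x) (h2 x)) n y

lemma biadd_sub_right (β : A → A → ZMod p) (h2 : ∀ x y y', β x (y + y') = β x y + β x y')
    (x y y' : A) : β x (y - y') = β x y - β x y' :=
  map_sub (AddMonoidHom.mk' (β x) (h2 x)) y y'

end Aux

/-- **CORE** (Ribet's linear algebra). -/
theorem ribetCore : Fermat.Agent.S41.Spec.RibetCoreStatement := by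
  intro p _ ι A B _ _ _ _ _ _ tA tB T i₁ i₂ j₁ j₂ c μ a βA βB hcA _hcB hi₁ hi₂ hj₁ hj₂
    hji₁₁ hji₂₂ hji₁₂ hji₂₁ hβA1 hβA2 hβB1 hβB2 hndA hndB hsaA _hsaB hadj₁ hadj₂ hIh
    ⟨x, hx, ⟨zT, hzT⟩, hxs⟩ ⟨κ, hκ⟩
  classical
  -- the operators `s_l = t_l - a_l`
  let sA : ι → Module.End ℤ A := fun l => tA l - a l • (1 : Module.End ℤ A)
  let sX : ι → Module.End ℤ (A × A) := fun l => (sA l).prodMap (sA l)
  let sY : ι → Module.End ℤ B := fun l => tB l - a l • (1 : Module.End ℤ B)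
  let i : A × A →ₗ[ℤ] B := i₁.coprod i₂
  let j : B →ₗ[ℤ] A × A := j₁.prod j₂
  let βX : A × A → A × A → ZMod p := fun u w => βA u.1 w.1 + βA u.2 w.2
  have hsA : ∀ l x, sA l x = tA l x - a l • x := fun l x => rfl
  have hsX : ∀ l (u : A × A), sX l u = (tA l u.1 - a l • u.1, tA l u.2 - a l • u.2) :=
    fun l u => rfl
  have hsY : ∀ l y, sY l y = tB l y - a l • y := fun l y => rfl
  have hi : ∀ u : A × A, i u = i₁ u.1 + i₂ u.2 := fun u => rfl
  have hj : ∀ y, j y = (j₁ y, j₂ y) := fun y => rfl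
  have hpair : ∀ (u : A × A), (∃ z, u = (p : ℤ) • z) ↔
      (∃ z, u.1 = (p : ℤ) • z) ∧ (∃ z, u.2 = (p : ℤ) • z) := by
    intro u
    constructor
    · rintro ⟨z, rfl⟩
      exact ⟨⟨z.1, rfl⟩, ⟨z.2, rfl⟩⟩
    · rintro ⟨⟨z₁, h₁⟩, ⟨z₂, h₂⟩⟩
      exact ⟨(z₁, z₂), Prod.ext h₁ h₂⟩
  have hcsA : ∀ l l' x, sA l (sA l' x) = sA l' (sA l x) := by
    intro l l' x
    simp only [hsA, map_sub, map_zsmul, hcA l l' x, smul_sub, smul_comm (a l) (a l') x]
    abel
  -- the starting vector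
  have key : ∃ v : A × A, (¬ ∃ z, v = (p : ℤ) • z) ∧ (∀ l, ∃ z, sX l v = (p : ℤ) • z) ∧
      ∃ z, j (i v) = (p : ℤ) • z := by
    have hsx : ∀ l, ∃ z, sA l x = (p : ℤ) • z := hxs
    by_cases hcase : ∃ z : A × A, (μ • x, -(c • x)) = (p : ℤ) • z
    · obtain ⟨z, hz⟩ := hcase
      have hz1 : μ • x = (p : ℤ) • z.1 := congrArg Prod.fst hz
      have hz2 : -(c • x) = (p : ℤ) • z.2 := congrArg Prod.snd hz
      refine ⟨(x, 0), ?_, ?_, ?_⟩
      · rintro ⟨w, hw⟩
        exact hx ⟨w.1, congrArg Prod.fst hw⟩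
      · intro l
        obtain ⟨w, hw⟩ := hsx l
        refine ⟨(w, 0), ?_⟩
        rw [hsX]
        refine Prod.ext ?_ ?_
        · simpa [hsA] using hw
        · simp
      · refine ⟨(-z.2, z.1 + zT), ?_⟩
        rw [hi, hj]
        refine Prod.ext ?_ ?_
        · show j₁ (i₁ x + i₂ 0) = (p : ℤ) • (-z.2)
          rw [map_zero, add_zero, hji₁₁, smul_neg, ← hz2, neg_neg]
        · show j₂ (i₁ x + i₂ 0) = (p : ℤ) • (z.1 + zT)
          rw [map_zero, add_zero, hji₂₁, smul_add, ← hz1, ← hzT]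
          abel
    · refine ⟨(μ • x, -(c • x)), hcase, ?_, ?_⟩
      · intro l
        obtain ⟨w, hw⟩ := hsx l
        refine ⟨(μ • w, -(c • w)), ?_⟩
        rw [hsX]
        have hw' : tA l x - a l • x = (p : ℤ) • w := hw
        refine Prod.ext ?_ ?_
        · show tA l (μ • x) - a l • μ • x = (p : ℤ) • μ • w
          rw [map_zsmul, smul_comm (a l) μ x, ← smul_sub, hw', smul_comm]
        · show tA l (-(c • x)) - a l • -(c • x) = (p : ℤ) • -(c • w)
          rw [map_neg, map_zsmul, smul_neg, smul_comm (a l) c x, smul_neg, smul_comm (p : ℤ) c w,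
            ← hw', smul_sub]
          abel
      · refine ⟨(-(c • zT), μ • zT + κ • x), ?_⟩
        rw [hi, hj]
        have hT : T x = μ • x + (p : ℤ) • zT := by rw [← hzT]; abel
        have hκ' : (μ ^ 2 - c ^ 2) • x = (p : ℤ) • κ • x := by rw [hκ, mul_smul]
        refine Prod.ext ?_ ?_
        · show j₁ (i₁ (μ • x) + i₂ (-(c • x))) = (p : ℤ) • (-(c • zT))
          rw [map_add, hji₁₁, hji₁₂, map_neg, map_zsmul, hT, smul_add, smul_neg,
            smul_comm c μ x, smul_comm (p : ℤ) c zT]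
          abel
        · show j₂ (i₁ (μ • x) + i₂ (-(c • x))) = (p : ℤ) • (μ • zT + κ • x)
          rw [map_add, hji₂₁, hji₂₂, map_zsmul, hT, smul_add, smul_add, ← hκ',
            smul_comm (p : ℤ) μ zT, sub_smul, pow_two, pow_two, mul_smul, mul_smul, smul_neg]
          abel
  obtain ⟨v, hv, hvs, hvM⟩ := key
  obtain ⟨y, hjy, hy, hys⟩ := core_sym p sX sY i j βX βB
    (by
      intro l l'
      apply LinearMap.ext
      rintro ⟨x₁, x₂⟩
      show sX l (sX l' (x₁, x₂)) = sX l' (sX l (x₁, x₂))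
      exact Prod.ext (hcsA l l' x₁) (hcsA l l' x₂))
    (by
      intro l u
      rw [hsY, hi, hi, hsX]
      simp only [map_add, map_sub, map_zsmul, hi₁, hi₂, smul_add]
      abel)
    (by
      intro l y
      rw [hsX, hj, hj, hsY]
      refine Prod.ext ?_ ?_
      · show tA l (j₁ y) - a l • j₁ y = j₁ (tB l y - a l • y)
        rw [map_sub, map_zsmul, hj₁]
      · show tA l (j₂ y) - a l • j₂ y = j₂ (tB l y - a l • y)
        rw [map_sub, map_zsmul, hj₂])
    (by
      intro u u' w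
      show βA (u.1 + u'.1) w.1 + βA (u.2 + u'.2) w.2 = _
      rw [hβA1, hβA1]
      show _ = (βA u.1 w.1 + βA u.2 w.2) + (βA u'.1 w.1 + βA u'.2 w.2)
      abel)
    (by
      intro u w w'
      show βA u.1 (w.1 + w'.1) + βA u.2 (w.2 + w'.2) = _
      rw [hβA2, hβA2]
      show _ = (βA u.1 w.1 + βA u.2 w.2) + (βA u.1 w'.1 + βA u.2 w'.2)
      abel)
    hβB1 hβB2
    (by
      intro u hu
      rw [hpair]
      constructor
      · apply hndA
        intro y
        have := hu (y, 0)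
        simpa [βX, biadd_zero_right βA hβA2] using this
      · apply hndA
        intro y
        have := hu (0, y)
        simpa [βX, biadd_zero_right βA hβA2] using this)
    hndB
    (by
      intro l u w
      show βA (tA l u.1 - a l • u.1) w.1 + βA (tA l u.2 - a l • u.2) w.2 =
        βA u.1 (tA l w.1 - a l • w.1) + βA u.2 (tA l w.2 - a l • w.2)
      rw [biadd_sub_left βA hβA1, biadd_sub_left βA hβA1, biadd_sub_right βA hβA2,
        biadd_sub_right βA hβA2, biadd_zsmul_left βA hβA1, biadd_zsmul_left βA hβA1,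
        biadd_zsmul_right βA hβA2, biadd_zsmul_right βA hβA2, hsaA, hsaA])
    (by
      intro u y
      show βB (i₁ u.1 + i₂ u.2) y = βA u.1 (j₁ y) + βA u.2 (j₂ y)
      rw [hβB1, hadj₁, hadj₂])
    (by
      intro u hu hus
      rw [hpair]
      refine hIh u.1 u.2 hu (fun l => ?_) (fun l => ?_)
      · obtain ⟨z, hz⟩ := hus l
        exact ⟨z.1, congrArg Prod.fst hz⟩
      · obtain ⟨z, hz⟩ := hus l
        exact ⟨z.2, congrArg Prod.snd hz⟩)
    v hv hvs hvM
  refine ⟨y, congrArg Prod.fst hjy, congrArg Prod.snd hjy, hy, hys⟩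

end Fermat.Agent.S41.H180
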